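/-
NEWFORM library (helper263) — part 1: a maximum principle for invariant functions on `ℍ`.

A continuous nonnegative function on the upper half plane which is invariant under an arithmetic
subgroup and tends to `0` at every cusp attains its maximum.  (Compactness of the truncated
fundamental domain of `SL(2, ℤ)`; no integration.)
-/
import Mathlib

set_option autoImplicit false

open Filter Topology UpperHalfPlane Matrix.SpecialLinearGroup
open scoped Modular MatrixGroups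

namespace Fermat.Agent.Lib.Newform.H263

/-- A finite family of continuous nonnegative functions on `ℍ`, permuted by `SL(2, ℤ)` and all
tending to `0` at `i∞`, has a global maximum. -/
theorem exists_max_of_family {ι : Type*} [Finite ι] [Nonempty ι] [MulAction SL(2, ℤ) ι]
    (F : ℍ → ι → ℝ) (hc : ∀ c, Continuous (F · c)) (hnn : ∀ τ c, 0 ≤ F τ c)
    (h0 : ∀ c, Tendsto (F · c) atImInfty (𝓝 0))
    (hinv : ∀ (g : SL(2, ℤ)) τ c, F (g • τ) (g • c) = F τ c) :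
    ∃ τ₀ c₀, ∀ τ c, F τ c ≤ F τ₀ c₀ := by
  classical
  by_cases hz : ∀ τ c, F τ c ≤ 0
  · exact ⟨UpperHalfPlane.I, Classical.arbitrary ι, fun τ c ↦ (hz τ c).trans (hnn _ _)⟩
  push Not at hz
  obtain ⟨τ₁, c₁, hpos⟩ := hz
  -- a uniform height above which everything is smaller than `F τ₁ c₁`
  have hY : ∀ c, ∃ Y : ℝ, ∀ τ : ℍ, Y ≤ τ.im → F τ c < F τ₁ c₁ := fun c ↦ by
    have := (h0 c).eventually (gt_mem_nhds hpos)
    exact (atImInfty_mem _).mp this
  choose Yc hYc using hY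
  obtain ⟨Y, hYub⟩ : ∃ Y : ℝ, ∀ c, Yc c < Y := by
    obtain ⟨B, hB⟩ := (Set.finite_range Yc).bddAbove
    exact ⟨B + 1, fun c ↦ lt_of_le_of_lt (hB (Set.mem_range_self c)) (lt_add_one B)⟩
  have hsmall : ∀ τ : ℍ, Y ≤ τ.im → ∀ c, F τ c < F τ₁ c₁ := fun τ hτ c ↦
    hYc c τ ((hYub c).le.trans hτ)
  -- the truncated fundamental domain is compact and contains a translate of `τ₁`
  obtain ⟨g₁, hg₁⟩ := ModularGroup.exists_smul_mem_fd τ₁
  have hmem₁ : g₁ • τ₁ ∈ ModularGroup.truncatedFundamentalDomain Y := by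
    refine ⟨hg₁, ?_⟩
    by_contra hlt
    have := hsmall (g₁ • τ₁) (not_le.mp hlt).le (g₁ • c₁)
    rw [hinv] at this
    exact lt_irrefl _ this
  have hne : (ModularGroup.truncatedFundamentalDomain Y).Nonempty := ⟨_, hmem₁⟩
  have hmax : ∀ c, ∃ τ ∈ ModularGroup.truncatedFundamentalDomain Y,
      ∀ τ' ∈ ModularGroup.truncatedFundamentalDomain Y, F τ' c ≤ F τ c := fun c ↦ by
    obtain ⟨τ, hτ, hτmax⟩ := (ModularGroup.isCompact_truncatedFundamentalDomain Y).exists_isMaxOn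
      hne (hc c).continuousOn
    exact ⟨τ, hτ, fun τ' hτ' ↦ hτmax hτ'⟩
  choose τc hτc hτcmax using hmax
  obtain ⟨c₀, hc₀⟩ := Finite.exists_max (fun c ↦ F (τc c) c)
  have key : ∀ τ ∈ ModularGroup.truncatedFundamentalDomain Y, ∀ c, F τ c ≤ F (τc c₀) c₀ :=
    fun τ hτ c ↦ (hτcmax c τ hτ).trans (hc₀ c)
  refine ⟨τc c₀, c₀, fun τ c ↦ ?_⟩
  obtain ⟨g, hg⟩ := ModularGroup.exists_smul_mem_fd τ
  rw [← hinv g τ c]
  by_cases hle : (g • τ).im ≤ Y
  · exact key _ ⟨hg, hle⟩ _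
  · refine (hsmall (g • τ) (not_le.mp hle).le (g • c)).le.trans ?_
    rw [← hinv g₁ τ₁ c₁]
    exact key _ hmem₁ _

/-- A continuous nonnegative function on `ℍ`, invariant under a finite-index subgroup of
`SL(2, ℤ)` and tending to `0` at every cusp, attains its maximum. -/
theorem exists_max_of_subgroup_invariant_SL {φ : ℍ → ℝ} (hc : Continuous φ) (hnn : ∀ τ, 0 ≤ φ τ)
    (h0 : ∀ g : SL(2, ℤ), Tendsto (fun τ ↦ φ (g • τ)) atImInfty (𝓝 0))
    {Γ : Subgroup SL(2, ℤ)} [Γ.FiniteIndex] (hinv : ∀ g ∈ Γ, ∀ τ, φ (g • τ) = φ τ) :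
    ∃ τ₀, ∀ τ, φ τ ≤ φ τ₀ := by
  let F τ : SL(2, ℤ) ⧸ Γ → ℝ := Quotient.lift (fun g ↦ φ (g⁻¹ • τ)) fun g h hgh ↦ by
    obtain ⟨j, hj, hj'⟩ : ∃ j ∈ Γ, h = g * j := by
      rw [← Quotient.eq_iff_equiv, Quotient.eq, QuotientGroup.leftRel_apply] at hgh
      exact ⟨g⁻¹ * h, hgh, (mul_inv_cancel_left g h).symm⟩
    simp [-ModularGroup.sl_moeb, hj', mul_smul, hinv j⁻¹ (inv_mem hj)]
  have hF_cont γ : Continuous (F · γ) := QuotientGroup.induction_on γ fun g ↦ by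
    simp only [ModularGroup.sl_moeb, F]
    fun_prop
  have hF_inv (g : SL(2, ℤ)) τ γ : F (g • τ) (g • γ) = F τ γ := by
    induction γ using QuotientGroup.induction_on
    simp [-ModularGroup.sl_moeb, F, mul_smul]
  have hF_infty γ : Tendsto (F · γ) atImInfty (𝓝 0) := γ.induction_on fun h ↦ h0 h⁻¹
  have hF_nn τ γ : 0 ≤ F τ γ := by
    induction γ using QuotientGroup.induction_on
    exact hnn _
  have : Finite (SL(2, ℤ) ⧸ Γ) := Subgroup.finite_quotient_of_finiteIndex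
  obtain ⟨τ₀, c₀, hmax⟩ := exists_max_of_family F hF_cont hF_nn hF_infty hF_inv
  induction c₀ using QuotientGroup.induction_on with
  | H g₀ =>
    refine ⟨g₀⁻¹ • τ₀, fun τ ↦ ?_⟩
    have := hmax τ ((1 : SL(2, ℤ)) : SL(2, ℤ) ⧸ Γ)
    simpa [-ModularGroup.sl_moeb, F] using this

/-- A continuous nonnegative function on `ℍ`, invariant under an arithmetic subgroup of
`GL(2, ℝ)` and tending to `0` at every cusp, attains its maximum. -/
theorem exists_max_of_subgroup_invariant {φ : ℍ → ℝ} (hc : Continuous φ) (hnn : ∀ τ, 0 ≤ φ τ)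
    (h0 : ∀ g : SL(2, ℤ), Tendsto (fun τ ↦ φ (g • τ)) atImInfty (𝓝 0))
    {Γ : Subgroup (GL (Fin 2) ℝ)} [Γ.IsArithmetic] (hinv : ∀ g ∈ Γ, ∀ τ, φ (g • τ) = φ τ) :
    ∃ τ₀, ∀ τ, φ τ ≤ φ τ₀ :=
  exists_max_of_subgroup_invariant_SL hc hnn h0 (Γ := Γ.comap (mapGL ℝ)) (hinv ·)

end Fermat.Agent.Lib.Newform.H263
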