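/-
NEWFORM library (helper263) — part 2: the strict trivial bound for Hecke eigenvalues.

For a nonzero weight-2 cusp form `f` on an arithmetic group and a prime `ℓ`:
`heckeT 2 ℓ f = c • f  ⟹  ‖c‖ < ℓ + 1`, and `heckeU 2 ℓ f = c • f ⟹ ‖c‖ ≤ ℓ`.
Proof: the invariant height `‖f τ‖ · im τ` attains its maximum (part 1); evaluate the eigen-equation
at a maximum point and iterate `τ ↦ ℓ τ` towards `i∞`.
-/
import Mathlib
import Fermat.Prelude.Def_ModularForm_HeckeOperatorForms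
import Fermat.Agent.Lib.Newform.H263.MaxPrinciple

set_option autoImplicit false

open Filter Topology UpperHalfPlane ModularForm Matrix.SpecialLinearGroup
open scoped Modular MatrixGroups ModularForm

namespace Fermat.Agent.Lib.Newform.H263

/-- The weight-2 invariant height `‖f τ‖ · im τ` of a function on the upper half plane. -/
noncomputable def height (f : ℍ → ℂ) (τ : ℍ) : ℝ := ‖f τ‖ * τ.im

theorem height_nonneg (f : ℍ → ℂ) (τ : ℍ) : 0 ≤ height f τ :=
  mul_nonneg (norm_nonneg _) τ.im_pos.le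

theorem height_sq (f : ℍ → ℂ) (τ : ℍ) : height f τ ^ 2 = ‖petersson 2 f f τ‖ := by
  simp only [height, petersson, norm_mul, Complex.norm_conj, norm_zpow, Complex.norm_real,
    Real.norm_of_nonneg τ.im_pos.le]
  norm_cast
  ring

theorem height_eq_sqrt (f : ℍ → ℂ) (τ : ℍ) : height f τ = Real.sqrt ‖petersson 2 f f τ‖ := by
  rw [← height_sq, Real.sqrt_sq (height_nonneg f τ)]

theorem height_pos_iff (f : ℍ → ℂ) (τ : ℍ) : 0 < height f τ ↔ f τ ≠ 0 := by
  rw [height, mul_pos_iff_of_pos_right τ.im_pos, norm_pos_iff]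

theorem height_smul (c : ℂ) (f : ℍ → ℂ) (τ : ℍ) : height (c • f) τ = ‖c‖ * height f τ := by
  simp [height, mul_assoc]

section cusp

variable (Γ : Subgroup (GL (Fin 2) ℝ)) [Γ.IsArithmetic] {F : Type*} [FunLike F ℍ ℂ]
  [CuspFormClass F Γ 2]

include Γ

theorem height_smul_of_mem (f : F) {g : GL (Fin 2) ℝ} (hg : g ∈ Γ) (τ : ℍ) :
    height f (g • τ) = height f τ := by
  rw [height_eq_sqrt, height_eq_sqrt, SlashInvariantFormClass.norm_petersson_smul hg]

omit [Γ.IsArithmetic] in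
theorem continuous_height (f : F) : Continuous (height (⇑f)) := by
  have hf : Continuous (⇑f) := ModularFormClass.continuous (Γ := Γ) (k := 2) f
  unfold height
  fun_prop

open ConjAct Pointwise in
theorem tendsto_height_smul (f : F) (g : SL(2, ℤ)) :
    Tendsto (fun τ ↦ height f (g • τ)) atImInfty (𝓝 0) := by
  have h1 : IsZeroAtImInfty (fun τ ↦ petersson 2 f f (g • τ)) := by
    simp_rw [← UpperHalfPlane.petersson_slash_SL]
    have : ((toConjAct (g : GL (Fin 2) ℝ)⁻¹) • Γ).IsArithmetic := by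
      simpa [(show Rat.castHom ℝ = algebraMap ℚ ℝ by rfl), map_inv, map_mapGL]
        using! Subgroup.IsArithmetic.conj Γ (mapGL ℚ g)⁻¹
    exact (CuspFormClass.zero_at_infty <| CuspForm.translate f g).petersson_isZeroAtImInfty_left 2 _
      (ModularForm.translate f g)
  have h2 : Tendsto (fun τ ↦ ‖petersson 2 f f (g • τ)‖) atImInfty (𝓝 0) := by
    rw [IsZeroAtImInfty, ZeroAtFilter] at h1
    simpa using h1.norm
  have h3 := (Real.continuous_sqrt.tendsto 0).comp h2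
  simp only [Real.sqrt_zero] at h3
  refine h3.congr fun τ ↦ ?_
  simp [height_eq_sqrt]

theorem tendsto_height (f : F) : Tendsto (height (⇑f)) atImInfty (𝓝 0) := by
  simpa using tendsto_height_smul Γ f 1

/-- The invariant height of a weight-2 cusp form attains its maximum. -/
theorem exists_max_height (f : F) : ∃ τ₀, ∀ τ, height f τ ≤ height f τ₀ :=
  exists_max_of_subgroup_invariant (continuous_height Γ f) (height_nonneg _)
    (tendsto_height_smul Γ f) (Γ := Γ) (fun _ hg τ ↦ height_smul_of_mem Γ f hg τ)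

end cusp

/-! ### The Hecke inequality -/

theorem im_heckeMatrix_smul {p : ℕ} (hp : p ≠ 0) (j : ℕ) (τ : ℍ) :
    (heckeMatrix p j • τ).im = τ.im / p := by
  have h := congrArg Complex.im (coe_heckeMatrix_smul hp j τ)
  rw [UpperHalfPlane.coe_im] at h
  rw [h, Complex.div_natCast_im, Complex.add_im, Complex.natCast_im, add_zero,
    UpperHalfPlane.coe_im]

theorem im_heckeDiagMatrix_smul {p : ℕ} (hp : p ≠ 0) (τ : ℍ) :
    (heckeDiagMatrix p • τ).im = p * τ.im := by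
  have h := congrArg Complex.im (coe_heckeDiagMatrix_smul hp τ)
  rw [UpperHalfPlane.coe_im] at h
  rw [h, Complex.mul_im, Complex.natCast_re, Complex.natCast_im, zero_mul, add_zero,
    UpperHalfPlane.coe_im]

theorem height_heckeU_le (f : ℍ → ℂ) {p : ℕ} (hp : p ≠ 0) (τ : ℍ) :
    height (heckeU 2 p f) τ ≤ ∑ j ∈ Finset.range p, height f (heckeMatrix p j • τ) := by
  have hp' : (0 : ℝ) < p := by exact_mod_cast Nat.pos_of_ne_zero hp
  rw [height, heckeU_apply 2 hp, norm_mul, norm_inv, Complex.norm_natCast]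
  calc (p : ℝ)⁻¹ * ‖∑ j ∈ Finset.range p, f (heckeMatrix p j • τ)‖ * τ.im
      ≤ (p : ℝ)⁻¹ * (∑ j ∈ Finset.range p, ‖f (heckeMatrix p j • τ)‖) * τ.im := by
        gcongr
        exact norm_sum_le _ _
    _ = ∑ j ∈ Finset.range p, height f (heckeMatrix p j • τ) := by
        rw [Finset.mul_sum, Finset.sum_mul]
        refine Finset.sum_congr rfl fun j _ ↦ ?_
        rw [height, im_heckeMatrix_smul hp]
        field_simp

theorem height_heckeT_le (f : ℍ → ℂ) {p : ℕ} (hp : p ≠ 0) (τ : ℍ) :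
    height (heckeT 2 p f) τ ≤
      ∑ j ∈ Finset.range p, height f (heckeMatrix p j • τ) + height f (heckeDiagMatrix p • τ) := by
  have h1 : height (heckeT 2 p f) τ ≤ height (heckeU 2 p f) τ
      + height (f ∣[(2 : ℤ)] heckeDiagMatrix p) τ := by
    rw [heckeT_eq_heckeU_add]
    simp only [height, Pi.add_apply, ← add_mul]
    gcongr
    exact norm_add_le _ _
  have h2 : height (f ∣[(2 : ℤ)] heckeDiagMatrix p) τ = height f (heckeDiagMatrix p • τ) := by
    rw [height, height, slash_heckeDiagMatrix_apply 2 hp, im_heckeDiagMatrix_smul hp, norm_mul]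
    simp
    ring
  rw [h2] at h1
  exact h1.trans (by gcongr; exact height_heckeU_le f hp τ)

/-! ### The strict trivial bound -/

section bound

variable (Γ : Subgroup (GL (Fin 2) ℝ)) [Γ.IsArithmetic] {F : Type*} [FunLike F ℍ ℂ]
  [CuspFormClass F Γ 2]

include Γ

/-- **Strict trivial bound.** If a nonzero weight-2 cusp form `f` satisfies `T_p f = c f`
(function-level Prelude operator `heckeT 2 p`, any `p ≥ 2`), then `‖c‖ < p + 1`. -/
theorem norm_lt_of_heckeT_eq (f : F) (hf : (⇑f : ℍ → ℂ) ≠ 0) {p : ℕ} (hp : 2 ≤ p) {c : ℂ}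
    (h : heckeT 2 p ⇑f = c • ⇑f) : ‖c‖ < p + 1 := by
  obtain ⟨τ₀, hmax⟩ := exists_max_height Γ f
  set m := height f τ₀ with hm_def
  have hm : 0 < m := by
    obtain ⟨τ, hτ⟩ : ∃ τ, f τ ≠ 0 := by
      by_contra h'
      push Not at h'
      exact hf (funext h')
    exact ((height_pos_iff _ _).mpr hτ).trans_le (hmax τ)
  by_contra hc
  push Not at hc
  have hp0 : p ≠ 0 := by omega
  -- a maximum point `τ` gives the maximum point `p τ`
  have step : ∀ τ, height f τ = m → height f (heckeDiagMatrix p • τ) = m := by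
    intro τ hτ
    have h1 := height_heckeT_le f hp0 τ
    rw [h, height_smul, hτ] at h1
    have h2 : ∑ j ∈ Finset.range p, height f (heckeMatrix p j • τ) ≤ p * m := by
      calc ∑ j ∈ Finset.range p, height f (heckeMatrix p j • τ)
          ≤ ∑ _j ∈ Finset.range p, m := Finset.sum_le_sum fun j _ ↦ hmax _
        _ = p * m := by simp
    have h3 : ((p : ℝ) + 1) * m ≤ ‖c‖ * m := by gcongr
    exact le_antisymm (hmax _) (by nlinarith)
  have iter : ∀ r : ℕ, ∃ τ : ℍ, height f τ = m ∧ τ.im = (p : ℝ) ^ r * τ₀.im := by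
    intro r
    induction r with
    | zero => exact ⟨τ₀, rfl, by simp⟩
    | succ r ih =>
      obtain ⟨τ, h1, h2⟩ := ih
      exact ⟨heckeDiagMatrix p • τ, step τ h1, by
        rw [im_heckeDiagMatrix_smul hp0, h2]; ring⟩
  obtain ⟨Y, hY⟩ := (atImInfty_mem _).mp ((tendsto_height Γ f).eventually (gt_mem_nhds hm))
  obtain ⟨r, hr⟩ : ∃ r : ℕ, Y ≤ (p : ℝ) ^ r * τ₀.im := by
    have hp1 : (1 : ℝ) < p := by exact_mod_cast hp
    have : Tendsto (fun r : ℕ ↦ (p : ℝ) ^ r * τ₀.im) atTop atTop :=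
      (tendsto_pow_atTop_atTop_of_one_lt hp1).atTop_mul_const τ₀.im_pos
    exact (this.eventually_ge_atTop Y).exists
  obtain ⟨τ, h1, h2⟩ := iter r
  have h4 := hY τ (h2 ▸ hr)
  exact absurd h1 (ne_of_lt h4)

/-- **Trivial bound for `U_p`.** If a nonzero weight-2 cusp form `f` satisfies `U_p f = c f`
(function-level Prelude operator `heckeU 2 p`, `p ≠ 0`), then `‖c‖ ≤ p`. -/
theorem norm_le_of_heckeU_eq (f : F) (hf : (⇑f : ℍ → ℂ) ≠ 0) {p : ℕ} (hp : p ≠ 0) {c : ℂ}
    (h : heckeU 2 p ⇑f = c • ⇑f) : ‖c‖ ≤ p := by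
  obtain ⟨τ₀, hmax⟩ := exists_max_height Γ f
  set m := height f τ₀ with hm_def
  have hm : 0 < m := by
    obtain ⟨τ, hτ⟩ : ∃ τ, f τ ≠ 0 := by
      by_contra h'
      push Not at h'
      exact hf (funext h')
    exact ((height_pos_iff _ _).mpr hτ).trans_le (hmax τ)
  have h1 := height_heckeU_le f hp τ₀
  rw [h, height_smul] at h1
  have h2 : ∑ j ∈ Finset.range p, height f (heckeMatrix p j • τ₀) ≤ p * m := by
    calc ∑ j ∈ Finset.range p, height f (heckeMatrix p j • τ₀)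
        ≤ ∑ _j ∈ Finset.range p, m := Finset.sum_le_sum fun j _ ↦ hmax _
      _ = p * m := by simp
  exact le_of_mul_le_mul_right (h1.trans h2) hm

end bound

/-! ### Level `Γ₀(N)`: the Prelude's bundled operators -/

section Gamma0

open CongruenceSubgroup

variable {N : ℕ}

theorem cuspForm_coe_ne_zero {k : ℤ} {f : CuspForm (Gamma0 N) k} (hf : f ≠ 0) :
    (⇑f : ℍ → ℂ) ≠ 0 := fun h ↦ hf (DFunLike.coe_injective (by rw [h]; rfl))

/-- **Strict trivial bound**, bundled form: an eigenvalue `c` of `T_ℓ` (`ℓ ∤ N` prime) on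
`S₂(Γ₀(N))` satisfies `‖c‖ < ℓ + 1`. -/
theorem norm_lt_of_heckeTLin_eq {f : CuspForm (Gamma0 N) 2} (hf : f ≠ 0) {ℓ : ℕ} (hℓ : ℓ.Prime)
    (hℓN : ¬ ℓ ∣ N) {c : ℂ} (h : CuspForm.heckeTLin 2 hℓ hℓN f = c • f) : ‖c‖ < ℓ + 1 := by
  have : NeZero N := ⟨fun h0 ↦ hℓN (h0 ▸ dvd_zero ℓ)⟩
  refine norm_lt_of_heckeT_eq (Gamma0 N : Subgroup (GL (Fin 2) ℝ)) f (cuspForm_coe_ne_zero hf)
    hℓ.two_le ?_
  have := congrArg (fun g : CuspForm (Gamma0 N) 2 ↦ (⇑g : ℍ → ℂ)) h
  simpa using this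

/-- **Trivial bound for `U_q`**, bundled form: an eigenvalue `c` of `U_q` (`q ∣ N`) on
`S₂(Γ₀(N))` satisfies `‖c‖ ≤ q`. -/
theorem norm_le_of_heckeULin_eq [NeZero N] {f : CuspForm (Gamma0 N) 2} (hf : f ≠ 0) {q : ℕ}
    (hq : q ≠ 0) (hqN : q ∣ N) {c : ℂ} (h : CuspForm.heckeULin 2 hqN f = c • f) : ‖c‖ ≤ q := by
  refine norm_le_of_heckeU_eq (Gamma0 N : Subgroup (GL (Fin 2) ℝ)) f (cuspForm_coe_ne_zero hf)
    hq ?_
  have := congrArg (fun g : CuspForm (Gamma0 N) 2 ↦ (⇑g : ℍ → ℂ)) h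
  simpa using this

/-- An eigenvalue `c` of `T_ℓ` on `S₂(Γ₀(N))` never satisfies `c² = (ℓ + 1)²`. -/
theorem sq_ne_of_heckeTLin_eq {f : CuspForm (Gamma0 N) 2} (hf : f ≠ 0) {ℓ : ℕ} (hℓ : ℓ.Prime)
    (hℓN : ¬ ℓ ∣ N) {c : ℂ} (h : CuspForm.heckeTLin 2 hℓ hℓN f = c • f) :
    c ^ 2 ≠ ((ℓ : ℂ) + 1) ^ 2 := by
  intro hc
  have h1 := norm_lt_of_heckeTLin_eq hf hℓ hℓN h
  have h2 : ‖c‖ ^ 2 = ((ℓ : ℝ) + 1) ^ 2 := by
    rw [← norm_pow, hc, norm_pow]
    congr 1
    have : ((ℓ : ℂ) + 1) = (((ℓ + 1 : ℕ) : ℝ) : ℂ) := by push_cast; ring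
    rw [this, Complex.norm_real, Real.norm_of_nonneg (by positivity)]
    push_cast; ring
  nlinarith [norm_nonneg c]

end Gamma0

end Fermat.Agent.Lib.Newform.H263
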