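/-
NEWFORM library (helper263) — part 3: consequences of the strict trivial bound for normalized
eigenforms and for the Hecke operators on `S₂(Γ₀(N))`.

* `norm_qCoeff_lt`            : `‖a_ℓ(f)‖ < ℓ + 1` for a normalized eigenform, `ℓ ∤ N`;
* `qCoeff_sq_ne`              : `a_ℓ(f)² ≠ (ℓ + 1)²`;
* `root_sq_ne_one`            : roots `α` of `X² - a_ℓ X + ℓ` satisfy `α² ≠ 1`;
* `not_isNewAt_of_root`       : an eigenform whose `q`-th coefficient is such a root is not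
                                `IsNewAt q` (`q`-old stabilisations are never new at `q`);
* `heckeTLin_sub_smul_injective/bijective`, `ribetDet_injective/bijective`, `isUnit_ribetDet` :
  `T_ℓ - c` (`‖c‖ ≥ ℓ + 1`) and `ribetDet = T_ℓ² - (ℓ + 1)²` are bijective on `S₂(Γ₀(N))`
  (the determinant of Ribet's level-raising matrix `[[ℓ+1, T_ℓ], [T_ℓ, ℓ+1]]` is invertible
  over `ℂ`).
-/
import Fermat.Agent.Lib.Newform.H263.EigenBound
import Fermat.Agent.Lib.Newform.H683.Eigen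
import Fermat.Agent.Lib.Newform.H683.FinDim

set_option autoImplicit false

open CongruenceSubgroup ModularFormClass ModularForm UpperHalfPlane

namespace Fermat.Agent.Lib.Newform.H263

variable {N : ℕ}

/-- **Strict trivial bound** for the coefficients of a normalized eigenform at good primes. -/
theorem norm_qCoeff_lt {f : CuspForm (Gamma0 N) 2} (hf : f.IsNormalizedEigenform) {ℓ : ℕ}
    (hℓ : ℓ.Prime) (hℓN : ¬ ℓ ∣ N) : ‖qCoeff ⇑f ℓ‖ < ℓ + 1 :=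
  norm_lt_of_heckeTLin_eq hf.ne_zero hℓ hℓN (H683.heckeTLin_eq_of_eigenform hf hℓ hℓN)

/-- Trivial bound for the coefficients of a normalized eigenform at bad primes. -/
theorem norm_qCoeff_le_of_dvd [NeZero N] {f : CuspForm (Gamma0 N) 2}
    (hf : f.IsNormalizedEigenform) {q : ℕ} (hq : q.Prime) (hqN : q ∣ N) : ‖qCoeff ⇑f q‖ ≤ q :=
  norm_le_of_heckeULin_eq hf.ne_zero hq.ne_zero hqN (H683.heckeULin_eq_of_eigenform hf hq hqN)

/-- `a_ℓ(f)² ≠ (ℓ + 1)²` for a normalized eigenform and a good prime `ℓ`. -/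
theorem qCoeff_sq_ne {f : CuspForm (Gamma0 N) 2} (hf : f.IsNormalizedEigenform) {ℓ : ℕ}
    (hℓ : ℓ.Prime) (hℓN : ¬ ℓ ∣ N) : qCoeff ⇑f ℓ ^ 2 ≠ ((ℓ : ℂ) + 1) ^ 2 :=
  sq_ne_of_heckeTLin_eq hf.ne_zero hℓ hℓN (H683.heckeTLin_eq_of_eigenform hf hℓ hℓN)

/-- The roots of the Hecke polynomial `X² - a_ℓ X + ℓ` of a normalized eigenform at a good prime
are different from `±1`. -/
theorem root_sq_ne_one {f : CuspForm (Gamma0 N) 2} (hf : f.IsNormalizedEigenform) {ℓ : ℕ}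
    (hℓ : ℓ.Prime) (hℓN : ¬ ℓ ∣ N) {α : ℂ} (hα : α ^ 2 - qCoeff ⇑f ℓ * α + ℓ = 0) :
    α ^ 2 ≠ 1 := by
  intro h1
  refine qCoeff_sq_ne hf hℓ hℓN ?_
  have h2 : qCoeff ⇑f ℓ * α = (ℓ : ℂ) + 1 := by
    have := hα
    rw [h1] at this
    linear_combination -this
  calc qCoeff ⇑f ℓ ^ 2 = (qCoeff ⇑f ℓ * α) ^ 2 := by rw [mul_pow, h1, mul_one]
    _ = ((ℓ : ℂ) + 1) ^ 2 := by rw [h2]

/-- An eigenform (of any level) whose `q`-th coefficient is a root of the Hecke polynomial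
`X² - a_q(f) X + q` of a normalized eigenform `f` of level prime to `q` is not `IsNewAt q`:
the `q`-old stabilisations of `f` are never new at `q`. -/
theorem not_isNewAt_of_root {f : CuspForm (Gamma0 N) 2} (hf : f.IsNormalizedEigenform) {q : ℕ}
    (hq : q.Prime) (hqN : ¬ q ∣ N) {M : ℕ} (g : CuspForm (Gamma0 M) 2)
    (hg : qCoeff ⇑g q ^ 2 - qCoeff ⇑f q * qCoeff ⇑g q + q = 0) : ¬ g.IsNewAt q :=
  fun h ↦ root_sq_ne_one hf hq hqN hg h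

/-! ### Linear algebra on `S₂(Γ₀(N))` -/

/-- `T_ℓ - c` is injective on `S₂(Γ₀(N))` as soon as `‖c‖ ≥ ℓ + 1`. -/
theorem heckeTLin_sub_smul_injective {ℓ : ℕ} (hℓ : ℓ.Prime) (hℓN : ¬ ℓ ∣ N) {c : ℂ}
    (hc : (ℓ : ℝ) + 1 ≤ ‖c‖) :
    Function.Injective
      (CuspForm.heckeTLin (N := N) 2 hℓ hℓN - c • (1 : Module.End ℂ (CuspForm (Gamma0 N) 2))) := by
  rw [← LinearMap.ker_eq_bot, LinearMap.ker_eq_bot']
  intro f hf
  by_contra hne
  have h : CuspForm.heckeTLin 2 hℓ hℓN f = c • f := by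
    have := hf
    simp only [LinearMap.sub_apply, LinearMap.smul_apply, Module.End.one_apply] at this
    exact sub_eq_zero.mp this
  exact absurd (norm_lt_of_heckeTLin_eq hne hℓ hℓN h) (not_lt.mpr hc)

/-- `T_ℓ - c` is bijective on `S₂(Γ₀(N))` as soon as `‖c‖ ≥ ℓ + 1`. -/
theorem heckeTLin_sub_smul_bijective {ℓ : ℕ} (hℓ : ℓ.Prime) (hℓN : ¬ ℓ ∣ N) {c : ℂ}
    (hc : (ℓ : ℝ) + 1 ≤ ‖c‖) :
    Function.Bijective
      (CuspForm.heckeTLin (N := N) 2 hℓ hℓN - c • (1 : Module.End ℂ (CuspForm (Gamma0 N) 2))) := by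
  have : NeZero N := ⟨fun h0 ↦ hℓN (h0 ▸ dvd_zero ℓ)⟩
  have := H683.finiteDimensional_cuspForm N 2
  have hinj := heckeTLin_sub_smul_injective (N := N) hℓ hℓN hc
  exact ⟨hinj, LinearMap.surjective_of_injective hinj⟩

/-- Every eigenvalue of `T_ℓ` on `S₂(Γ₀(N))` has norm `< ℓ + 1`. -/
theorem norm_lt_of_hasEigenvalue {ℓ : ℕ} (hℓ : ℓ.Prime) (hℓN : ¬ ℓ ∣ N) {c : ℂ}
    (hc : Module.End.HasEigenvalue (CuspForm.heckeTLin (N := N) 2 hℓ hℓN) c) : ‖c‖ < ℓ + 1 := by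
  obtain ⟨f, hf⟩ := hc.exists_hasEigenvector
  exact norm_lt_of_heckeTLin_eq hf.2 hℓ hℓN (hf.apply_eq_smul)

/-- The endomorphism `T_ℓ² - (ℓ + 1)²` of `S₂(Γ₀(N))`: minus the determinant of Ribet's
level-raising matrix `[[ℓ + 1, T_ℓ], [T_ℓ, ℓ + 1]]`. -/
noncomputable def ribetDet (N : ℕ) {ℓ : ℕ} (hℓ : ℓ.Prime) (hℓN : ¬ ℓ ∣ N) :
    Module.End ℂ (CuspForm (Gamma0 N) 2) :=
  (CuspForm.heckeTLin 2 hℓ hℓN) ^ 2 - (((ℓ : ℂ) + 1) ^ 2) • 1

theorem ribetDet_apply {ℓ : ℕ} (hℓ : ℓ.Prime) (hℓN : ¬ ℓ ∣ N) (f : CuspForm (Gamma0 N) 2) :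
    ribetDet N hℓ hℓN f =
      CuspForm.heckeTLin 2 hℓ hℓN (CuspForm.heckeTLin 2 hℓ hℓN f) - (((ℓ : ℂ) + 1) ^ 2) • f := by
  simp [ribetDet, pow_two]

/-- `T_ℓ² - (ℓ + 1)²` is injective on `S₂(Γ₀(N))`. -/
theorem ribetDet_injective {ℓ : ℕ} (hℓ : ℓ.Prime) (hℓN : ¬ ℓ ∣ N) :
    Function.Injective (ribetDet N hℓ hℓN) := by
  rw [← LinearMap.ker_eq_bot, LinearMap.ker_eq_bot']
  intro f hf
  rw [ribetDet_apply, sub_eq_zero] at hf
  have hnorm : ‖((ℓ : ℂ) + 1)‖ = (ℓ : ℝ) + 1 := by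
    have : ((ℓ : ℂ) + 1) = (((ℓ + 1 : ℕ) : ℝ) : ℂ) := by push_cast; ring
    rw [this, Complex.norm_real, Real.norm_of_nonneg (by positivity)]
    push_cast; ring
  by_contra hne
  by_cases hg : CuspForm.heckeTLin 2 hℓ hℓN f + ((ℓ : ℂ) + 1) • f = 0
  · have h : CuspForm.heckeTLin 2 hℓ hℓN f = (-((ℓ : ℂ) + 1)) • f := by
      exact (eq_neg_of_add_eq_zero_left hg).trans (_root_.neg_smul _ _).symm
    have := norm_lt_of_heckeTLin_eq hne hℓ hℓN h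
    rw [norm_neg, hnorm] at this
    exact lt_irrefl _ this
  · have h : CuspForm.heckeTLin 2 hℓ hℓN (CuspForm.heckeTLin 2 hℓ hℓN f + ((ℓ : ℂ) + 1) • f)
        = ((ℓ : ℂ) + 1) • (CuspForm.heckeTLin 2 hℓ hℓN f + ((ℓ : ℂ) + 1) • f) := by
      rw [map_add, map_smul, hf, smul_add, smul_smul, pow_two]
      abel
    have := norm_lt_of_heckeTLin_eq hg hℓ hℓN h
    rw [hnorm] at this
    exact lt_irrefl _ this

/-- `T_ℓ² - (ℓ + 1)²` is bijective on `S₂(Γ₀(N))`: the determinant of Ribet's matrix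
`[[ℓ + 1, T_ℓ], [T_ℓ, ℓ + 1]]` is invertible over `ℂ`. -/
theorem ribetDet_bijective {ℓ : ℕ} (hℓ : ℓ.Prime) (hℓN : ¬ ℓ ∣ N) :
    Function.Bijective (ribetDet N hℓ hℓN) := by
  have : NeZero N := ⟨fun h0 ↦ hℓN (h0 ▸ dvd_zero ℓ)⟩
  have := H683.finiteDimensional_cuspForm N 2
  have hinj := ribetDet_injective (N := N) hℓ hℓN
  exact ⟨hinj, LinearMap.surjective_of_injective hinj⟩

/-- `T_ℓ² - (ℓ + 1)²` is a unit of `End(S₂(Γ₀(N)))`. -/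
theorem isUnit_ribetDet {ℓ : ℕ} (hℓ : ℓ.Prime) (hℓN : ¬ ℓ ∣ N) : IsUnit (ribetDet N hℓ hℓN) :=
  (Module.End.isUnit_iff _).mpr (ribetDet_bijective hℓ hℓN)

end Fermat.Agent.Lib.Newform.H263
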