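/-
NEWFORM library (helper263) — block X leaf **STRICT**: the strict trivial bound in the exact shape
of the frozen interface `Fermat.Agent.Lib.Newform.H958.X.StrictBound`.
-/
import Fermat.Agent.Lib.Newform.H958.X.Spec
import Fermat.Agent.Lib.Newform.H263.Eigenform

set_option autoImplicit false

namespace Fermat.Agent.Lib.Newform.H263

/-- **STRICT** (block X): `a_ℓ(g)² ≠ (ℓ + 1)²` for a normalized eigenform `g` of level `N` and a
prime `ℓ ∤ N`. -/
theorem strictBound : H958.X.StrictBound :=
  fun _N _ _g hg _ℓ hℓ hℓN ↦ qCoeff_sq_ne hg hℓ hℓN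

end Fermat.Agent.Lib.Newform.H263
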